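/-
GATE-J27 (S27) / node A7 GRP, part 1 (helper27): vocabulary and first lemmas.

`T` an additive abelian group, `f : AddMonoid.End T` (the Frobenius).
* `fixPow f n`   : the subgroup of points fixed by `f ^ n`;
* `normEnd f n m`: the norm `∑_{i < m} f ^ (n * i)` from `fixPow f (n * m)` to `fixPow f n`;
* `tors ℓ k`     : the `ℓ ^ k`-torsion subgroup.
Mathlib only.
-/
import Mathlib

set_option autoImplicit false

namespace Fermat.Agent.GJ27.Grp

variable {T : Type*} [AddCommGroup T]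

/-! ### application lemmas in `AddMonoid.End T` -/

theorem end_sub_apply (f g : AddMonoid.End T) (x : T) : (f - g) x = f x - g x :=
  AddMonoidHom.sub_apply f g x

theorem end_add_apply (f g : AddMonoid.End T) (x : T) : (f + g) x = f x + g x :=
  AddMonoidHom.add_apply f g x

theorem end_mul_apply (f g : AddMonoid.End T) (x : T) : (f * g) x = f (g x) := rfl

theorem end_one_apply (x : T) : (1 : AddMonoid.End T) x = x := rfl

theorem end_zero_apply (x : T) : (0 : AddMonoid.End T) x = 0 := rfl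

theorem end_natCast_apply (n : ℕ) (x : T) : (n : AddMonoid.End T) x = n • x :=
  AddMonoid.End.natCast_apply n x

theorem end_sum_apply {ι : Type*} (s : Finset ι) (g : ι → AddMonoid.End T) (x : T) :
    (∑ i ∈ s, g i) x = ∑ i ∈ s, g i x := by
  classical
  induction s using Finset.induction_on with
  | empty => simp
  | insert a s ha ih => rw [Finset.sum_insert ha, Finset.sum_insert ha, end_add_apply, ih]

theorem end_pow_succ_apply (f : AddMonoid.End T) (n : ℕ) (x : T) :
    (f ^ (n + 1)) x = f ((f ^ n) x) := by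
  rw [pow_succ', end_mul_apply]

theorem end_pow_succ_apply' (f : AddMonoid.End T) (n : ℕ) (x : T) :
    (f ^ (n + 1)) x = (f ^ n) (f x) := by
  rw [pow_succ, end_mul_apply]

theorem end_pow_add_apply (f : AddMonoid.End T) (m n : ℕ) (x : T) :
    (f ^ (m + n)) x = (f ^ m) ((f ^ n) x) := by
  rw [pow_add, end_mul_apply]

theorem end_pow_mul_apply (f : AddMonoid.End T) (m n : ℕ) (x : T) :
    (f ^ (m * n)) x = ((f ^ m) ^ n) x := by
  rw [pow_mul]

/-! ### fixed points of powers -/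

/-- the subgroup of points fixed by `f ^ n`. -/
def fixPow (f : AddMonoid.End T) (n : ℕ) : AddSubgroup T where
  carrier := {x | (f ^ n) x = x}
  zero_mem' := map_zero _
  add_mem' := by
    intro a b ha hb
    show (f ^ n) (a + b) = a + b
    rw [map_add, ha, hb]
  neg_mem' := by
    intro a ha
    show (f ^ n) (-a) = -a
    rw [map_neg, ha]

theorem mem_fixPow {f : AddMonoid.End T} {n : ℕ} {x : T} : x ∈ fixPow f n ↔ (f ^ n) x = x :=
  Iff.rfl

theorem mem_fixPow_iff_sub {f : AddMonoid.End T} {n : ℕ} {x : T} :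
    x ∈ fixPow f n ↔ (f ^ n - 1) x = 0 := by
  rw [mem_fixPow, end_sub_apply, end_one_apply, sub_eq_zero]

theorem pow_pow_apply_of_mem_fixPow {f : AddMonoid.End T} {n : ℕ} {x : T} (hx : x ∈ fixPow f n)
    (m : ℕ) : (f ^ (n * m)) x = x := by
  induction m with
  | zero => simp [end_one_apply]
  | succ m ih => rw [Nat.mul_succ, end_pow_add_apply, mem_fixPow.mp hx, ih]

theorem fixPow_le_of_dvd (f : AddMonoid.End T) {n n' : ℕ} (h : n ∣ n') :
    fixPow f n ≤ fixPow f n' := by
  obtain ⟨m, rfl⟩ := h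
  intro x hx
  exact pow_pow_apply_of_mem_fixPow hx m

theorem map_mem_fixPow {f : AddMonoid.End T} {n : ℕ} {x : T} (hx : x ∈ fixPow f n) (i : ℕ) :
    (f ^ i) x ∈ fixPow f n := by
  rw [mem_fixPow, ← end_pow_add_apply, add_comm, end_pow_add_apply, mem_fixPow.mp hx]

theorem fixPow_pow (f : AddMonoid.End T) (n m : ℕ) : fixPow (f ^ n) m = fixPow f (n * m) := by
  ext x
  rw [mem_fixPow, mem_fixPow, pow_mul]

/-! ### the norm -/

/-- the norm `∑_{i < m} f ^ (n * i)`. -/
def normEnd (f : AddMonoid.End T) (n m : ℕ) : AddMonoid.End T :=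
  ∑ i ∈ Finset.range m, f ^ (n * i)

theorem normEnd_apply (f : AddMonoid.End T) (n m : ℕ) (x : T) :
    normEnd f n m x = ∑ i ∈ Finset.range m, (f ^ (n * i)) x :=
  end_sum_apply _ _ x

theorem normEnd_eq_geom (f : AddMonoid.End T) (n m : ℕ) :
    normEnd f n m = ∑ i ∈ Finset.range m, (f ^ n) ^ i := by
  unfold normEnd
  exact Finset.sum_congr rfl fun i _ => pow_mul f n i

theorem normEnd_mem_fixPow {f : AddMonoid.End T} {n m : ℕ} {y : T} (hy : y ∈ fixPow f (n * m)) :
    normEnd f n m y ∈ fixPow f n := by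
  rw [mem_fixPow_iff_sub, ← end_mul_apply, normEnd_eq_geom, mul_geom_sum, ← pow_mul,
    ← mem_fixPow_iff_sub]
  exact hy

/-! ### torsion -/

/-- the `ℓ ^ k`-torsion subgroup. -/
def tors (T : Type*) [AddCommGroup T] (ℓ k : ℕ) : AddSubgroup T :=
  (nsmulAddMonoidHom (α := T) (ℓ ^ k)).ker

theorem mem_tors {ℓ k : ℕ} {x : T} : x ∈ tors T ℓ k ↔ ℓ ^ k • x = 0 := by
  rw [tors, AddMonoidHom.mem_ker]
  rfl

theorem tors_mono (ℓ : ℕ) {k k' : ℕ} (h : k ≤ k') : tors T ℓ k ≤ tors T ℓ k' := by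
  intro x hx
  rw [mem_tors] at hx ⊢
  obtain ⟨d, rfl⟩ := Nat.exists_eq_add_of_le h
  rw [pow_add, mul_comm, mul_smul, hx, smul_zero]

theorem map_mem_tors {ℓ k : ℕ} (g : AddMonoid.End T) {x : T} (hx : x ∈ tors T ℓ k) :
    g x ∈ tors T ℓ k := by
  rw [mem_tors] at hx ⊢
  rw [← map_nsmul, hx, map_zero]

theorem nsmul_mem_tors {ℓ k : ℕ} {x : T} (hx : x ∈ tors T ℓ (k + 1)) : ℓ • x ∈ tors T ℓ k := by
  rw [mem_tors] at hx ⊢
  rw [← mul_smul, ← pow_succ]
  exact hx

end Fermat.Agent.GJ27.Grp
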