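/-
GATE-J27 (S27) / node A7 GRP, part 2 (helper27): the hypotheses (`FrobGrowth`), the tower
`S j = fixPow f (m₀ * ℓ ^ j)`, and FINITENESS of the `ℓ ^ k`-torsion (locally unipotent growth
argument: on `T[ℓ]` the operator `ψ ^ (ℓ ^ j) - 1` is `(ψ - 1) ^ (ℓ ^ j)`, so an infinite `T[ℓ]`
would force `|S j| ≥ 2 ^ (ℓ ^ j)`, against `|S j| = ℓ ^ (c + r j)`).  Mathlib only.
-/
import Mathlib
import Fermat.Agent.GJ27.Grp.Basic

set_option autoImplicit false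

namespace Fermat.Agent.GJ27.Grp

variable {T : Type*} [AddCommGroup T]

/-- **Hypotheses of node A7.**  `T` an `ℓ`-primary abelian group with an endomorphism `f` (the
Frobenius) all of whose points are fixed by a power of `f`; the fixed groups are finite with
`|T^{f^(m₀ m ℓ^j)}| = ℓ ^ (c + r j)` (`m` prime to `ℓ`); the norms between fixed groups are
surjective. -/
structure FrobGrowth (T : Type*) [AddCommGroup T] (f : AddMonoid.End T) (ℓ m₀ c r : ℕ) : Prop where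
  m₀_pos : 0 < m₀
  primary : ∀ x : T, ∃ k : ℕ, ℓ ^ k • x = 0
  union : ∀ x : T, ∃ n : ℕ, 0 < n ∧ x ∈ fixPow f n
  finite : ∀ n : ℕ, 0 < n → (fixPow f n : Set T).Finite
  card : ∀ m j : ℕ, 0 < m → m.Coprime ℓ → Nat.card (fixPow f (m₀ * m * ℓ ^ j)) = ℓ ^ (c + r * j)
  norm : ∀ n m : ℕ, 0 < n → 0 < m → ∀ x ∈ fixPow f n, ∃ y ∈ fixPow f (n * m), normEnd f n m y = x

/-! ### `X ^ (ℓ ^ j) - 1 ≡ (X - 1) ^ (ℓ ^ j)` modulo `ℓ` -/

open Polynomial in
theorem exists_poly_pow_char (ℓ : ℕ) [Fact ℓ.Prime] (j : ℕ) :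
    ∃ H : ℤ[X], (X : ℤ[X]) ^ ℓ ^ j - 1 - (X - 1) ^ ℓ ^ j = C (ℓ : ℤ) * H := by
  rw [← dvd_def, Polynomial.C_dvd_iff_dvd_coeff]
  intro i
  rw [← ZMod.intCast_zmod_eq_zero_iff_dvd]
  show (Int.castRingHom (ZMod ℓ)) (((X : ℤ[X]) ^ ℓ ^ j - 1 - (X - 1) ^ ℓ ^ j).coeff i) = 0
  rw [← Polynomial.coeff_map]
  have h : ((X : ℤ[X]) ^ ℓ ^ j - 1 - (X - 1) ^ ℓ ^ j).map (Int.castRingHom (ZMod ℓ)) = 0 := by
    simp only [Polynomial.map_sub, Polynomial.map_pow, Polynomial.map_X, Polynomial.map_one]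
    rw [sub_pow_char_pow, one_pow, sub_self]
  rw [h, Polynomial.coeff_zero]

/-- in any ring: `g ^ (ℓ ^ j) - 1 = (g - 1) ^ (ℓ ^ j) + ℓ * h` with `h` a polynomial in `g`. -/
theorem exists_pow_char_sub {R : Type*} [Ring R] (ℓ : ℕ) [Fact ℓ.Prime] (j : ℕ) (g : R) :
    ∃ h : R, g ^ ℓ ^ j - 1 = (g - 1) ^ ℓ ^ j + (ℓ : R) * h := by
  obtain ⟨H, hH⟩ := exists_poly_pow_char ℓ j
  refine ⟨Polynomial.aeval g H, ?_⟩
  have h1 : Polynomial.aeval g (Polynomial.C (ℓ : ℤ)) = (ℓ : R) := by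
    rw [Polynomial.aeval_C, eq_intCast, Int.cast_natCast]
  have := congrArg (Polynomial.aeval g) hH
  rw [map_mul, h1] at this
  simp only [map_sub, map_pow, Polynomial.aeval_X, map_one] at this
  rw [← this]
  abel

/-- on `ℓ`-torsion points, `g ^ (ℓ ^ j)` fixes `v` iff `(g - 1) ^ (ℓ ^ j)` kills `v`. -/
theorem pow_char_apply_eq_iff (ℓ : ℕ) [Fact ℓ.Prime] (j : ℕ) (g : AddMonoid.End T) {v : T}
    (hv : ℓ • v = 0) : (g ^ ℓ ^ j) v = v ↔ ((g - 1) ^ ℓ ^ j) v = 0 := by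
  obtain ⟨h, hh⟩ := exists_pow_char_sub ℓ j g
  have h1 : (g ^ ℓ ^ j - 1) v = ((g - 1) ^ ℓ ^ j) v := by
    rw [hh, end_add_apply, end_mul_apply, end_natCast_apply, ← map_nsmul, hv, map_zero, add_zero]
  rw [← h1, end_sub_apply, end_one_apply, sub_eq_zero]

/-! ### kernels of powers -/

/-- `ℓ`-torsion points killed by `x ^ i`. -/
def kerPow (ℓ : ℕ) (x : AddMonoid.End T) (i : ℕ) : AddSubgroup T where
  carrier := {v | ℓ • v = 0 ∧ (x ^ i) v = 0}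
  zero_mem' := ⟨smul_zero _, map_zero _⟩
  add_mem' := by
    rintro a b ⟨ha1, ha2⟩ ⟨hb1, hb2⟩
    exact ⟨by rw [smul_add, ha1, hb1, add_zero], by rw [map_add, ha2, hb2, add_zero]⟩
  neg_mem' := by
    rintro a ⟨ha1, ha2⟩
    exact ⟨by rw [smul_neg, ha1, neg_zero], by rw [map_neg, ha2, neg_zero]⟩

theorem mem_kerPow {ℓ : ℕ} {x : AddMonoid.End T} {i : ℕ} {v : T} :
    v ∈ kerPow ℓ x i ↔ ℓ • v = 0 ∧ (x ^ i) v = 0 := Iff.rfl

theorem kerPow_mono (ℓ : ℕ) (x : AddMonoid.End T) {i i' : ℕ} (h : i ≤ i') :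
    kerPow ℓ x i ≤ kerPow ℓ x i' := by
  rintro v ⟨h1, h2⟩
  obtain ⟨d, rfl⟩ := Nat.exists_eq_add_of_le h
  refine ⟨h1, ?_⟩
  rw [add_comm, end_pow_add_apply, h2, map_zero]

theorem kerPow_succ_eq_of_eq (ℓ : ℕ) (x : AddMonoid.End T) {i : ℕ}
    (h : kerPow ℓ x (i + 1) = kerPow ℓ x i) : kerPow ℓ x (i + 2) = kerPow ℓ x (i + 1) := by
  refine le_antisymm ?_ (kerPow_mono ℓ x (by omega))
  rintro v ⟨h1, h2⟩
  have hxv : x v ∈ kerPow ℓ x (i + 1) :=
    ⟨by rw [← map_nsmul, h1, map_zero], by rw [← end_pow_succ_apply']; exact h2⟩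
  rw [h] at hxv
  exact ⟨h1, by rw [end_pow_succ_apply']; exact hxv.2⟩

theorem kerPow_eq_of_eq (ℓ : ℕ) (x : AddMonoid.End T) {i : ℕ}
    (h : kerPow ℓ x (i + 1) = kerPow ℓ x i) (d : ℕ) : kerPow ℓ x (i + d) = kerPow ℓ x i := by
  induction d generalizing i with
  | zero => rfl
  | succ d ih =>
    have h2 := kerPow_succ_eq_of_eq ℓ x h
    have := ih (i := i + 1) h2
    rw [show i + (d + 1) = i + 1 + d by omega, this, h]

/-- strictly increasing chains of finite subgroups grow at least like `2 ^ i`. -/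
theorem two_pow_le_card_kerPow (ℓ : ℕ) (x : AddMonoid.End T) (n : ℕ)
    (hfin : (kerPow ℓ x n : Set T).Finite)
    (hne : ∀ i < n, kerPow ℓ x (i + 1) ≠ kerPow ℓ x i) :
    ∀ i ≤ n, 2 ^ i ≤ Nat.card (kerPow ℓ x i) := by
  intro i
  induction i with
  | zero =>
    intro _
    have : Finite (kerPow ℓ x 0) := (hfin.subset (kerPow_mono ℓ x (Nat.zero_le n))).to_subtype
    exact Nat.card_pos
  | succ i ih =>
    intro hi
    have hle : kerPow ℓ x i ≤ kerPow ℓ x (i + 1) := kerPow_mono ℓ x (Nat.le_succ i)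
    have hfin1 : Finite (kerPow ℓ x (i + 1)) := (hfin.subset (kerPow_mono ℓ x hi)).to_subtype
    have hrel : (kerPow ℓ x i).relIndex (kerPow ℓ x (i + 1)) * Nat.card (kerPow ℓ x i) =
        Nat.card (kerPow ℓ x (i + 1)) := by
      have := AddSubgroup.relIndex_mul_relIndex ⊥ (kerPow ℓ x i) (kerPow ℓ x (i + 1)) bot_le hle
      rw [AddSubgroup.relIndex_bot_left, AddSubgroup.relIndex_bot_left] at this
      rw [mul_comm]
      exact this
    have hr1 : (kerPow ℓ x i).relIndex (kerPow ℓ x (i + 1)) ≠ 1 := by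
      rw [Ne, AddSubgroup.relIndex_eq_one]
      intro hge
      exact hne i (by omega) (le_antisymm hge hle)
    have hr0 : (kerPow ℓ x i).relIndex (kerPow ℓ x (i + 1)) ≠ 0 := by
      intro h0
      rw [h0, zero_mul] at hrel
      have : 0 < Nat.card (kerPow ℓ x (i + 1)) := Nat.card_pos
      omega
    have hr2 : 2 ≤ (kerPow ℓ x i).relIndex (kerPow ℓ x (i + 1)) := by omega
    calc 2 ^ (i + 1) = 2 * 2 ^ i := by ring
      _ ≤ (kerPow ℓ x i).relIndex (kerPow ℓ x (i + 1)) * Nat.card (kerPow ℓ x i) :=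
          Nat.mul_le_mul hr2 (ih (by omega))
      _ = Nat.card (kerPow ℓ x (i + 1)) := hrel

end Fermat.Agent.GJ27.Grp
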