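/-
GATE-J27 (S27) / node A7 GRP, part 3 (helper27): the tower `S j = fixPow f (m₀ * ℓ ^ j)` exhausts
`T`, and the torsion subgroups `T[ℓ ^ k]` are FINITE.  Mathlib only.
-/
import Mathlib
import Fermat.Agent.GJ27.Grp.Growth

set_option autoImplicit false

namespace Fermat.Agent.GJ27.Grp

variable {T : Type*} [AddCommGroup T]

/-! ### a numerical lemma -/

theorem two_mul_mul_succ_lt_four_pow : ∀ s : ℕ, 2 ≤ s → 2 * s * (s + 1) + 1 ≤ 4 ^ s := by
  intro s hs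
  induction s, hs using Nat.le_induction with
  | base => norm_num
  | succ s hs ih =>
    have : 4 ^ (s + 1) = 4 * 4 ^ s := by ring
    rw [this]
    nlinarith

/-- exponential beats polynomial: `ℓ ^ (c + r j) < 2 ^ (ℓ ^ j)` for a suitable `j`. -/
theorem exists_pow_lt_two_pow (ℓ c r : ℕ) (hℓ : 2 ≤ ℓ) : ∃ j : ℕ, ℓ ^ (c + r * j) < 2 ^ ℓ ^ j := by
  set s := c + r + 2 with hs
  refine ⟨2 * s + 1, ?_⟩
  set e := c + r * (2 * s + 1) with he
  have h1 : e + 1 ≤ 4 ^ s := by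
    have h2 := two_mul_mul_succ_lt_four_pow s (by omega)
    have h3 : e ≤ 2 * s * (s + 1) := by
      have hc : c ≤ s := by omega
      have hr : r ≤ s := by omega
      calc e = c + r * (2 * s + 1) := he
        _ ≤ s + s * (2 * s + 1) := Nat.add_le_add hc (Nat.mul_le_mul_right _ hr)
        _ = 2 * s * (s + 1) := by ring
    omega
  have h4 : (4 : ℕ) ^ s ≤ ℓ ^ (2 * s) := by
    rw [pow_mul]
    exact Nat.pow_le_pow_left (by nlinarith) s
  have h5 : ℓ ≤ 2 ^ ℓ := Nat.lt_two_pow_self.le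
  calc ℓ ^ e ≤ (2 ^ ℓ) ^ e := Nat.pow_le_pow_left h5 e
    _ = 2 ^ (ℓ * e) := by rw [pow_mul]
    _ < 2 ^ (ℓ * e + 1) := Nat.pow_lt_pow_right (by norm_num) (by omega)
    _ ≤ 2 ^ ℓ ^ (2 * s + 1) := by
        apply Nat.pow_le_pow_right (by norm_num)
        calc ℓ * e + 1 ≤ ℓ * (e + 1) := by nlinarith
          _ ≤ ℓ * ℓ ^ (2 * s) := Nat.mul_le_mul_left _ (h1.trans h4)
          _ = ℓ ^ (2 * s + 1) := by ring

namespace FrobGrowth

variable {f : AddMonoid.End T} {ℓ m₀ c r : ℕ}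

/-- the tower of fixed groups `S j = T^{f^(m₀ ℓ^j)}`. -/
def S (f : AddMonoid.End T) (ℓ m₀ : ℕ) (j : ℕ) : AddSubgroup T := fixPow f (m₀ * ℓ ^ j)

theorem S_mono (f : AddMonoid.End T) (ℓ m₀ : ℕ) {j j' : ℕ} (h : j ≤ j') :
    S f ℓ m₀ j ≤ S f ℓ m₀ j' :=
  fixPow_le_of_dvd f (Nat.mul_dvd_mul_left _ (pow_dvd_pow ℓ h))

theorem mem_S_iff {j : ℕ} {x : T} : x ∈ S f ℓ m₀ j ↔ ((f ^ m₀) ^ ℓ ^ j) x = x := by
  rw [S, ← fixPow_pow, mem_fixPow]

variable [hℓ : Fact ℓ.Prime] (h : FrobGrowth T f ℓ m₀ c r)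
include h

theorem finite_S (j : ℕ) : (S f ℓ m₀ j : Set T).Finite :=
  h.finite _ (Nat.mul_pos h.m₀_pos (pow_pos hℓ.out.pos j))

omit hℓ in
theorem card_S (j : ℕ) : Nat.card (S f ℓ m₀ j) = ℓ ^ (c + r * j) := by
  have := h.card 1 j one_pos (Nat.coprime_one_left ℓ)
  rwa [mul_one] at this

/-- the tower exhausts `T`. -/
theorem exists_mem_S (x : T) : ∃ j : ℕ, x ∈ S f ℓ m₀ j := by
  obtain ⟨n, hn, hx⟩ := h.union x
  obtain ⟨a, n', hn', rfl⟩ := Nat.exists_eq_pow_mul_and_not_dvd hn.ne' ℓ hℓ.out.ne_one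
  have hn'0 : 0 < n' := by
    rcases Nat.eq_zero_or_pos n' with h0 | h0
    · rw [h0, mul_zero] at hn; omega
    · exact h0
  have hcop : n'.Coprime ℓ := ((Nat.Prime.coprime_iff_not_dvd hℓ.out).mpr hn').symm
  refine ⟨a, ?_⟩
  have hxB : x ∈ fixPow f (m₀ * n' * ℓ ^ a) :=
    fixPow_le_of_dvd f ⟨m₀, by ring⟩ hx
  have hle : S f ℓ m₀ a ≤ fixPow f (m₀ * n' * ℓ ^ a) :=
    fixPow_le_of_dvd f ⟨n', by ring⟩
  have hfin : Finite (fixPow f (m₀ * n' * ℓ ^ a)) :=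
    (h.finite _ (Nat.mul_pos (Nat.mul_pos h.m₀_pos hn'0) (pow_pos hℓ.out.pos a))).to_subtype
  have heq : S f ℓ m₀ a = fixPow f (m₀ * n' * ℓ ^ a) :=
    AddSubgroup.eq_of_le_of_card_ge hle (by rw [h.card n' a hn'0 hcop, h.card_S a])
  rw [heq]
  exact hxB

set_option linter.unusedSectionVars false in
/-- `T[ℓ] ∩ S j` is the kernel of `(ψ - 1) ^ (ℓ ^ j)` on `T[ℓ]`, `ψ = f ^ m₀`. -/
theorem mem_kerPow_iff (j : ℕ) (v : T) :
    v ∈ kerPow ℓ (f ^ m₀ - 1) (ℓ ^ j) ↔ ℓ • v = 0 ∧ v ∈ S f ℓ m₀ j := by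
  rw [mem_kerPow, mem_S_iff]
  constructor
  · rintro ⟨h1, h2⟩
    exact ⟨h1, (pow_char_apply_eq_iff ℓ j (f ^ m₀) h1).mpr h2⟩
  · rintro ⟨h1, h2⟩
    exact ⟨h1, (pow_char_apply_eq_iff ℓ j (f ^ m₀) h1).mp h2⟩

theorem finite_kerPow (i : ℕ) : (kerPow ℓ (f ^ m₀ - 1) i : Set T).Finite := by
  have hi : i ≤ ℓ ^ i := (Nat.lt_pow_self hℓ.out.one_lt).le
  refine (h.finite_S i).subset ?_
  intro v hv
  exact ((h.mem_kerPow_iff i v).mp (kerPow_mono ℓ _ hi hv)).2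

/-- **`T[ℓ]` is finite.** -/
theorem finite_tors_one : (tors T ℓ 1 : Set T).Finite := by
  by_contra hinf
  -- every `ℓ`-torsion point lies in some `kerPow`
  have hcover : ∀ v : T, ℓ • v = 0 → ∃ j, v ∈ kerPow ℓ (f ^ m₀ - 1) (ℓ ^ j) := by
    intro v hv
    obtain ⟨j, hj⟩ := h.exists_mem_S v
    exact ⟨j, (h.mem_kerPow_iff j v).mpr ⟨hv, hj⟩⟩
  -- the chain is strictly increasing
  have hne : ∀ i, kerPow ℓ (f ^ m₀ - 1) (i + 1) ≠ kerPow ℓ (f ^ m₀ - 1) i := by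
    intro i heq
    apply hinf
    refine (h.finite_kerPow i).subset ?_
    intro v hv
    have hv' : ℓ • v = 0 := by
      have := mem_tors.mp hv
      rwa [pow_one] at this
    obtain ⟨j, hj⟩ := hcover v hv'
    have := kerPow_mono ℓ (f ^ m₀ - 1) (Nat.le_add_left (ℓ ^ j) i) hj
    rw [kerPow_eq_of_eq ℓ _ heq] at this
    exact this
  obtain ⟨j, hj⟩ := exists_pow_lt_two_pow ℓ c r hℓ.out.two_le
  have h1 := two_pow_le_card_kerPow ℓ (f ^ m₀ - 1) (ℓ ^ j) (h.finite_kerPow _)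
    (fun i _ => hne i) (ℓ ^ j) le_rfl
  have hfinS : Finite (S f ℓ m₀ j) := (h.finite_S j).to_subtype
  have h2 : Nat.card (kerPow ℓ (f ^ m₀ - 1) (ℓ ^ j)) ≤ Nat.card (S f ℓ m₀ j) :=
    AddSubgroup.card_le_of_le fun v hv => ((h.mem_kerPow_iff j v).mp hv).2
  rw [h.card_S j] at h2
  omega

/-- **`T[ℓ ^ k]` is finite.** -/
theorem finite_tors (k : ℕ) : (tors T ℓ k : Set T).Finite := by
  induction k with
  | zero =>
    refine (Set.finite_singleton (0 : T)).subset ?_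
    intro x hx
    have := mem_tors.mp hx
    rw [pow_zero, one_smul] at this
    exact this
  | succ k ih =>
    have hsub : (tors T ℓ (k + 1) : Set T) ⊆ (fun x : T => ℓ • x) ⁻¹' (tors T ℓ k : Set T) :=
      fun x hx => nsmul_mem_tors hx
    refine (Set.Finite.preimage' ih ?_).subset hsub
    intro b _
    by_cases hb : ∃ a : T, ℓ • a = b
    · obtain ⟨a, rfl⟩ := hb
      refine (h.finite_tors_one.image (fun v => a + v)).subset ?_
      intro x hx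
      refine ⟨x - a, ?_, by simp⟩
      have hx' : ℓ • x = ℓ • a := hx
      show x - a ∈ tors T ℓ 1
      rw [mem_tors, pow_one, smul_sub, hx', sub_self]
    · convert Set.finite_empty
      ext x
      simp only [Set.mem_preimage, Set.mem_singleton_iff, Set.mem_empty_iff_false, iff_false]
      exact fun hx => hb ⟨x, hx⟩

end FrobGrowth

end Fermat.Agent.GJ27.Grp
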