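/-
GATE-J27 (S27) / node A7 GRP, part 4 (helper27): DIVISIBILITY.  Under `FrobGrowth`, `T = ℓ T`:
the images of the tower `S j` in `T / ℓT` have at most `|T[ℓ]|` elements, hence stabilise, and
then the surjective norms `S (j+1) → S j` land in `ℓ T`.  Mathlib only.
-/
import Mathlib
import Fermat.Agent.GJ27.Grp.Finite

set_option autoImplicit false

namespace Fermat.Agent.GJ27.Grp

variable {T : Type*} [AddCommGroup T]

/-- kernel–image count on a subgroup. -/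
theorem card_eq_card_inf_ker_mul_card_map {G H : Type*} [AddCommGroup G] [AddCommGroup H]
    (φ : G →+ H) (K : AddSubgroup G) :
    Nat.card K = Nat.card ↥(φ.ker ⊓ K) * Nat.card ↥(K.map φ) := by
  rw [← AddSubgroup.relIndex_ker, ← AddSubgroup.inf_relIndex_right,
    ← AddSubgroup.relIndex_bot_left (φ.ker ⊓ K),
    AddSubgroup.relIndex_mul_relIndex ⊥ _ K bot_le inf_le_right, AddSubgroup.relIndex_bot_left]

/-- the subgroup `ℓ T`. -/
def mulRange (T : Type*) [AddCommGroup T] (ℓ : ℕ) : AddSubgroup T :=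
  (nsmulAddMonoidHom (α := T) ℓ).range

theorem mem_mulRange {ℓ : ℕ} {x : T} : x ∈ mulRange T ℓ ↔ ∃ y : T, ℓ • y = x := by
  rw [mulRange, AddMonoidHom.mem_range]
  rfl

theorem ker_nsmul_eq_tors (ℓ : ℕ) : (nsmulAddMonoidHom (α := T) ℓ).ker = tors T ℓ 1 := by
  rw [tors, pow_one]

/-- the image of a finite subgroup in `T / ℓ T` has at most `|T[ℓ]|` elements. -/
theorem card_map_mk_le (ℓ : ℕ) (hV : (tors T ℓ 1 : Set T).Finite) (A : AddSubgroup T)
    (hA : (A : Set T).Finite) :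
    Nat.card ↥(A.map (QuotientAddGroup.mk' (mulRange T ℓ))) ≤ Nat.card (tors T ℓ 1) := by
  have hfinA : Finite A := hA.to_subtype
  have hfinV : Finite (tors T ℓ 1) := hV.to_subtype
  set g := nsmulAddMonoidHom (α := T) ℓ with hg
  set π := QuotientAddGroup.mk' (mulRange T ℓ) with hπ
  have h1 := card_eq_card_inf_ker_mul_card_map g A
  have h2 := card_eq_card_inf_ker_mul_card_map π A
  rw [hπ, QuotientAddGroup.ker_mk'] at h2
  have hle : A.map g ≤ mulRange T ℓ ⊓ A := by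
    rintro _ ⟨a, ha, rfl⟩
    exact ⟨⟨a, rfl⟩, A.nsmul_mem ha ℓ⟩
  have hfinRA : Finite ↥(mulRange T ℓ ⊓ A) := (hA.subset (fun x hx => hx.2)).to_subtype
  have h3 : Nat.card ↥(A.map g) ≤ Nat.card ↥(mulRange T ℓ ⊓ A) := AddSubgroup.card_le_of_le hle
  have h4 : Nat.card ↥(g.ker ⊓ A) ≤ Nat.card (tors T ℓ 1) := by
    rw [ker_nsmul_eq_tors]
    exact AddSubgroup.card_le_of_le inf_le_left
  have hpos : 0 < Nat.card ↥(mulRange T ℓ ⊓ A) := Nat.card_pos
  have h5 : Nat.card ↥(mulRange T ℓ ⊓ A) * Nat.card ↥(A.map π) ≤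
      Nat.card ↥(mulRange T ℓ ⊓ A) * Nat.card (tors T ℓ 1) := by
    rw [← hπ] at h2
    rw [← h2, h1]
    calc Nat.card ↥(g.ker ⊓ A) * Nat.card ↥(A.map g)
        ≤ Nat.card (tors T ℓ 1) * Nat.card ↥(mulRange T ℓ ⊓ A) := Nat.mul_le_mul h4 h3
      _ = _ := mul_comm _ _
  exact Nat.le_of_mul_le_mul_left h5 hpos

/-- a monotone bounded sequence of natural numbers is eventually constant. -/
theorem exists_stable_of_monotone_bounded (a : ℕ → ℕ) (hmono : Monotone a) (B : ℕ)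
    (hB : ∀ j, a j ≤ B) : ∃ j₀, ∀ j, j₀ ≤ j → a j = a j₀ := by
  have hne : (Set.range a).Nonempty := ⟨a 0, 0, rfl⟩
  have hbdd : BddAbove (Set.range a) := ⟨B, by rintro _ ⟨j, rfl⟩; exact hB j⟩
  obtain ⟨j₀, hj₀⟩ := Nat.sSup_mem hne hbdd
  refine ⟨j₀, fun j hj => le_antisymm ?_ (hmono hj)⟩
  rw [hj₀]
  exact le_csSup hbdd ⟨j, rfl⟩

namespace FrobGrowth

variable {f : AddMonoid.End T} {ℓ m₀ c r : ℕ} [hℓ : Fact ℓ.Prime] (h : FrobGrowth T f ℓ m₀ c r)
include h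

/-- the images of the tower in `T / ℓ T` stabilise. -/
theorem exists_map_S_stable : ∃ j₀, ∀ j, j₀ ≤ j →
    (S f ℓ m₀ j).map (QuotientAddGroup.mk' (mulRange T ℓ)) =
      (S f ℓ m₀ j₀).map (QuotientAddGroup.mk' (mulRange T ℓ)) := by
  set π := QuotientAddGroup.mk' (mulRange T ℓ) with hπ
  have hfin : ∀ j, Finite ↥((S f ℓ m₀ j).map π) := fun j =>
    ((h.finite_S j).image π).to_subtype
  have hmonoS : ∀ {j j'}, j ≤ j' → (S f ℓ m₀ j).map π ≤ (S f ℓ m₀ j').map π := fun hjj' =>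
    AddSubgroup.map_mono (S_mono f ℓ m₀ hjj')
  obtain ⟨j₀, hj₀⟩ := exists_stable_of_monotone_bounded
    (fun j => Nat.card ↥((S f ℓ m₀ j).map π))
    (fun j j' hjj' => by
      have := hfin j'
      exact AddSubgroup.card_le_of_le (hmonoS hjj'))
    (Nat.card (tors T ℓ 1))
    (fun j => card_map_mk_le ℓ h.finite_tors_one _ (h.finite_S j))
  refine ⟨j₀, fun j hj => ?_⟩
  have := hfin j
  exact (AddSubgroup.eq_of_le_of_card_ge (hmonoS hj) (hj₀ j hj).le).symm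

/-- **`T` is `ℓ`-divisible.** -/
theorem divisible (x : T) : ∃ y : T, ℓ • y = x := by
  obtain ⟨j₀, hj₀⟩ := h.exists_map_S_stable
  obtain ⟨j₁, hj₁⟩ := h.exists_mem_S x
  set j := max j₀ j₁ with hj
  have hxj : x ∈ S f ℓ m₀ j := S_mono f ℓ m₀ (le_max_right _ _) hj₁
  have hn : 0 < m₀ * ℓ ^ j := Nat.mul_pos h.m₀_pos (pow_pos hℓ.out.pos j)
  obtain ⟨y, hy, hxy⟩ := h.norm (m₀ * ℓ ^ j) ℓ hn hℓ.out.pos x hxj
  have hy' : y ∈ S f ℓ m₀ (j + 1) := by
    rw [S, pow_succ, ← mul_assoc]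
    exact hy
  -- `y = s + ℓ t` with `s ∈ S j₀`
  have hmem : QuotientAddGroup.mk' (mulRange T ℓ) y ∈
      (S f ℓ m₀ j₀).map (QuotientAddGroup.mk' (mulRange T ℓ)) := by
    rw [← hj₀ (j + 1) (by omega)]
    exact ⟨y, hy', rfl⟩
  obtain ⟨s, hs, hsy⟩ := hmem
  have hsub : y - s ∈ mulRange T ℓ := by
    have : QuotientAddGroup.mk' (mulRange T ℓ) (y - s) = 0 := by
      rw [map_sub, hsy, sub_self]
    rwa [QuotientAddGroup.mk'_apply, QuotientAddGroup.eq_zero_iff] at this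
  obtain ⟨t, ht⟩ := mem_mulRange.mp hsub
  have hsj : s ∈ fixPow f (m₀ * ℓ ^ j) := S_mono f ℓ m₀ (le_max_left _ _) hs
  -- the norm of `s` is `ℓ s`
  have hNs : normEnd f (m₀ * ℓ ^ j) ℓ s = ℓ • s := by
    rw [normEnd_apply]
    rw [Finset.sum_congr rfl (fun i _ => pow_pow_apply_of_mem_fixPow hsj i)]
    simp
  refine ⟨s + normEnd f (m₀ * ℓ ^ j) ℓ t, ?_⟩
  have hy_eq : y = s + ℓ • t := by rw [ht]; abel
  rw [← hxy, hy_eq, map_add, hNs, map_nsmul, smul_add]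

end FrobGrowth

end Fermat.Agent.GJ27.Grp
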