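/-
GATE-J27 (S27) / node A7 GRP, part 5 (helper27): THE COUNT.  Under `FrobGrowth`:
`|T[ℓ ^ k]| = ℓ ^ (r k)` for all `k`.

`T` is divisible with `T[ℓ]` finite, so `|T[ℓ ^ k]| = |T[ℓ]| ^ k`; and for `j` large `u = f ^ (m₀ ℓ^j)`
is trivial on `T[ℓ²]`, so `u - 1 = ℓ² w`, `u ^ ℓ - 1 = ℓ (u - 1) (1 + ℓ s)` with `1 + ℓ s` bijective,
whence `|S (j+1)| = |T[ℓ]| |S j|` and `|T[ℓ]| = ℓ ^ r`.  Mathlib only.
-/
import Mathlib
import Fermat.Agent.GJ27.Grp.Divisible

set_option autoImplicit false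

namespace Fermat.Agent.GJ27.Grp

variable {T : Type*} [AddCommGroup T]

/-! ### a ring identity -/

/-- for `u = 1 + ℓ² w`: `u ^ ℓ - 1 = (ℓ · ℓ² w) (1 + ℓ s)` with `s` commuting with `w`. -/
theorem pow_sub_one_factor {R : Type*} [Ring R] (ℓ : ℕ) (w : R) :
    ∃ s : R, Commute s w ∧
      (1 + (ℓ : R) ^ 2 * w) ^ ℓ - 1 = ((ℓ : R) * ((ℓ : R) ^ 2 * w)) * (1 + (ℓ : R) * s) := by
  set u : R := 1 + (ℓ : R) ^ 2 * w with hu
  set h : R := ∑ i ∈ Finset.range ℓ, ∑ a ∈ Finset.range i, u ^ a with hh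
  have hcast : ∀ x : R, Commute ((ℓ : R) ^ 2) x := fun x => by
    have := (Nat.cast_commute (ℓ ^ 2) x)
    rwa [Nat.cast_pow] at this
  have hwu : Commute w u := by
    rw [hu]
    exact (Commute.one_right w).add_right ((hcast w).symm.mul_right (Commute.refl w))
  have hwh : Commute w h := by
    rw [hh]
    exact Commute.sum_right _ _ _ fun i _ => Commute.sum_right _ _ _ fun a _ => hwu.pow_right a
  refine ⟨w * h, (Commute.refl w).mul_left hwh.symm, ?_⟩
  have hue : u - 1 = (ℓ : R) ^ 2 * w := by rw [hu]; abel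
  have hG : ∑ i ∈ Finset.range ℓ, u ^ i = (ℓ : R) + (u - 1) * h := by
    rw [hh, Finset.mul_sum]
    have : ∀ i ∈ Finset.range ℓ, (u - 1) * ∑ a ∈ Finset.range i, u ^ a = u ^ i - 1 :=
      fun i _ => mul_geom_sum u i
    rw [Finset.sum_congr rfl this, Finset.sum_sub_distrib]
    simp
  rw [← mul_geom_sum u ℓ, hG, hue]
  have h1 : (ℓ : R) ^ 2 * w * h = (ℓ : R) * ((ℓ : R) * (w * h)) := by
    rw [pow_two]; simp only [mul_assoc]
  have h2 : (ℓ : R) + (ℓ : R) ^ 2 * w * h = (ℓ : R) * (1 + (ℓ : R) * (w * h)) := by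
    rw [h1, mul_add, mul_one]
  rw [h2, ← mul_assoc, ← mul_assoc]
  congr 1
  exact ((Nat.cast_commute ℓ ((ℓ : R) ^ 2 * w))).symm.eq

/-! ### `1 + ℓ s` is bijective on an `ℓ`-primary group -/

theorem pow_neg_natCast_mul_apply_eq_zero (ℓ : ℕ) (s : AddMonoid.End T) {k : ℕ} {x : T}
    (hx : ℓ ^ k • x = 0) : ((-((ℓ : AddMonoid.End T) * s)) ^ k) x = 0 := by
  have hc : Commute (ℓ : AddMonoid.End T) s := Nat.cast_commute ℓ s
  rw [neg_pow, hc.mul_pow, end_mul_apply, end_mul_apply, ← Nat.cast_pow, end_natCast_apply,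
    ← map_nsmul, hx, map_zero, map_zero]

theorem injective_one_add_natCast_mul (ℓ : ℕ) (hprim : ∀ x : T, ∃ k : ℕ, ℓ ^ k • x = 0)
    (s A : AddMonoid.End T) (hAs : A = 1 + (ℓ : AddMonoid.End T) * s) : Function.Injective A := by
  rw [injective_iff_map_eq_zero]
  intro x hx
  obtain ⟨k, hk⟩ := hprim x
  set N : AddMonoid.End T := -((ℓ : AddMonoid.End T) * s) with hN
  have hA : A = 1 - N := by rw [hAs, hN]; abel
  have h1 := geom_sum_mul_neg N k
  have h2 := congrArg (fun a : AddMonoid.End T => a x) h1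
  beta_reduce at h2
  rw [end_mul_apply, ← hA, hx, map_zero, end_sub_apply, end_one_apply,
    pow_neg_natCast_mul_apply_eq_zero ℓ s hk, sub_zero] at h2
  exact h2.symm

theorem surjective_one_add_natCast_mul (ℓ : ℕ) (hprim : ∀ x : T, ∃ k : ℕ, ℓ ^ k • x = 0)
    (s A : AddMonoid.End T) (hAs : A = 1 + (ℓ : AddMonoid.End T) * s) :
    Function.Surjective A := by
  intro z
  obtain ⟨k, hk⟩ := hprim z
  set N : AddMonoid.End T := -((ℓ : AddMonoid.End T) * s) with hN
  have hA : A = 1 - N := by rw [hAs, hN]; abel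
  refine ⟨(∑ i ∈ Finset.range k, N ^ i) z, ?_⟩
  have h1 := mul_neg_geom_sum N k
  have h2 := congrArg (fun a : AddMonoid.End T => a z) h1
  beta_reduce at h2
  rw [end_mul_apply, ← hA, end_sub_apply, end_one_apply,
    pow_neg_natCast_mul_apply_eq_zero ℓ s hk, sub_zero] at h2
  exact h2

/-! ### kernels -/

/-- the kernel of an endomorphism. -/
def kerE (a : AddMonoid.End T) : AddSubgroup T where
  carrier := {x | a x = 0}
  zero_mem' := map_zero a
  add_mem' := by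
    intro x y hx hy
    show a (x + y) = 0
    rw [map_add, hx, hy, add_zero]
  neg_mem' := by
    intro x hx
    show a (-x) = 0
    rw [map_neg, hx, neg_zero]

theorem mem_kerE {a : AddMonoid.End T} {x : T} : x ∈ kerE a ↔ a x = 0 := Iff.rfl

theorem fixPow_eq_kerE (f : AddMonoid.End T) (n : ℕ) : fixPow f n = kerE (f ^ n - 1) := by
  ext x
  rw [mem_fixPow_iff_sub, mem_kerE]

/-- if `A` is bijective then `ker (b * A)` and `ker b` have the same cardinality. -/
theorem card_kerE_mul_of_bijective (b A : AddMonoid.End T) (hA : Function.Bijective A) :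
    Nat.card (kerE (b * A)) = Nat.card (kerE b) := by
  refine Nat.card_congr (Equiv.ofBijective
    (fun x : kerE (b * A) => (⟨A x.1, ?_⟩ : kerE b)) ⟨?_, ?_⟩)
  · have := x.2
    rw [mem_kerE, end_mul_apply] at this
    exact this
  · intro x y hxy
    exact Subtype.ext (hA.1 (congrArg Subtype.val hxy))
  · intro z
    obtain ⟨x, hx⟩ := hA.2 z.1
    refine ⟨⟨x, ?_⟩, Subtype.ext hx⟩
    rw [mem_kerE, end_mul_apply, hx]
    exact z.2

/-- for divisible `T`: `|ker (ℓ e)| = |T[ℓ]| |ker e|`. -/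
theorem card_kerE_natCast_mul (ℓ : ℕ) (hdiv : ∀ x : T, ∃ y : T, ℓ • y = x) (e : AddMonoid.End T) :
    Nat.card (kerE ((ℓ : AddMonoid.End T) * e)) =
      Nat.card (tors T ℓ 1) * Nat.card (kerE e) := by
  have hc : (ℓ : AddMonoid.End T) * e = e * (ℓ : AddMonoid.End T) := Nat.cast_comm ℓ e
  rw [card_eq_card_inf_ker_mul_card_map (nsmulAddMonoidHom (α := T) ℓ), ker_nsmul_eq_tors]
  have h1 : tors T ℓ 1 ⊓ kerE ((ℓ : AddMonoid.End T) * e) = tors T ℓ 1 := by
    apply inf_of_le_left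
    intro v hv
    rw [mem_tors, pow_one] at hv
    rw [mem_kerE, hc, end_mul_apply, end_natCast_apply, hv, map_zero]
  have h2 : (kerE ((ℓ : AddMonoid.End T) * e)).map (nsmulAddMonoidHom (α := T) ℓ) = kerE e := by
    ext z
    constructor
    · rintro ⟨x, hx, rfl⟩
      rw [SetLike.mem_coe, mem_kerE, hc, end_mul_apply, end_natCast_apply] at hx
      exact hx
    · intro hz
      obtain ⟨x, rfl⟩ := hdiv z
      refine ⟨x, ?_, rfl⟩
      rw [SetLike.mem_coe, mem_kerE, hc, end_mul_apply, end_natCast_apply]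
      exact hz
  rw [h1, h2]

end Fermat.Agent.GJ27.Grp
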