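/-
GATE-J27 (S27) / node A7 GRP, part 6 (helper27): MAIN THEOREM of the node.

`FrobGrowth T f ℓ m₀ c r ⟹ ∀ k, Nat.card (tors T ℓ k) = ℓ ^ (r * k)`.  Mathlib only.
-/
import Mathlib
import Fermat.Agent.GJ27.Grp.Count

set_option autoImplicit false

namespace Fermat.Agent.GJ27.Grp

variable {T : Type*} [AddCommGroup T]

theorem end_natCast_pow_apply (ℓ k : ℕ) (x : T) :
    ((ℓ : AddMonoid.End T) ^ k) x = ℓ ^ k • x := by
  rw [← Nat.cast_pow, end_natCast_apply]

namespace FrobGrowth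

variable {f : AddMonoid.End T} {ℓ m₀ c r : ℕ} [hℓ : Fact ℓ.Prime] (h : FrobGrowth T f ℓ m₀ c r)
include h

/-- a finite subset of `T` lies in one step of the tower. -/
theorem exists_subset_S {s : Set T} (hs : s.Finite) : ∃ j, s ⊆ (S f ℓ m₀ j : Set T) := by
  classical
  choose jx hjx using h.exists_mem_S
  refine ⟨hs.toFinset.sup jx, fun x hx => ?_⟩
  exact S_mono f ℓ m₀ (Finset.le_sup (f := jx) (hs.mem_toFinset.mpr hx)) (hjx x)

/-- `|S (j+1)| = |T[ℓ]| |S j|` once `T[ℓ²] ⊆ S j`. -/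
theorem card_S_succ (j : ℕ) (hj : (tors T ℓ 2 : Set T) ⊆ (S f ℓ m₀ j : Set T)) :
    Nat.card (S f ℓ m₀ (j + 1)) = Nat.card (tors T ℓ 1) * Nat.card (S f ℓ m₀ j) := by
  set n := m₀ * ℓ ^ j with hn
  set u : AddMonoid.End T := f ^ n with hu
  set e : AddMonoid.End T := u - 1 with he
  have hdiv2 : Function.Surjective (nsmulAddMonoidHom (α := T) (ℓ ^ 2)) := by
    intro x
    obtain ⟨y, hy⟩ := h.divisible x
    obtain ⟨z, hz⟩ := h.divisible y
    refine ⟨z, ?_⟩
    show ℓ ^ 2 • z = x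
    rw [pow_two, mul_smul, hz, hy]
  have hker : (nsmulAddMonoidHom (α := T) (ℓ ^ 2)).ker ≤ AddMonoidHom.ker e := by
    intro x hx
    have hx2 : x ∈ tors T ℓ 2 := hx
    have hxS : x ∈ S f ℓ m₀ j := hj hx2
    rw [AddMonoidHom.mem_ker]
    show e x = 0
    rw [he, end_sub_apply, end_one_apply, sub_eq_zero]
    exact hxS
  set w : AddMonoid.End T :=
    (AddMonoidHom.liftOfRightInverse (nsmulAddMonoidHom (α := T) (ℓ ^ 2))
      (Function.surjInv hdiv2) (Function.rightInverse_surjInv hdiv2)) ⟨e, hker⟩ with hw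
  have hwz : ∀ z : T, w (ℓ ^ 2 • z) = e z := fun z =>
    AddMonoidHom.liftOfRightInverse_comp_apply (nsmulAddMonoidHom (α := T) (ℓ ^ 2))
      (Function.surjInv hdiv2) (Function.rightInverse_surjInv hdiv2) ⟨e, hker⟩ z
  have hew : e = (ℓ : AddMonoid.End T) ^ 2 * w := by
    have h1 : e = w * (ℓ : AddMonoid.End T) ^ 2 := by
      ext z
      rw [end_mul_apply, end_natCast_pow_apply, hwz]
    rw [h1, ← Nat.cast_pow]
    exact (Nat.cast_comm (ℓ ^ 2) w).symm
  have hu1 : u = 1 + (ℓ : AddMonoid.End T) ^ 2 * w := by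
    rw [← hew, he]; abel
  obtain ⟨s, -, hs⟩ := pow_sub_one_factor ℓ w
  rw [← hu1, ← hew] at hs
  -- the two kernels
  have hS1 : S f ℓ m₀ (j + 1) = kerE (u ^ ℓ - 1) := by
    rw [S, fixPow_eq_kerE, hu, ← pow_mul, hn, pow_succ, mul_assoc]
  have hS0 : S f ℓ m₀ j = kerE e := by
    rw [S, fixPow_eq_kerE]
  rw [hS1, hS0, hs]
  have hA : Function.Bijective (1 + (ℓ : AddMonoid.End T) * s : AddMonoid.End T) :=
    ⟨injective_one_add_natCast_mul ℓ h.primary s _ rfl,
      surjective_one_add_natCast_mul ℓ h.primary s _ rfl⟩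
  rw [card_kerE_mul_of_bijective _ _ hA, card_kerE_natCast_mul ℓ h.divisible e]

/-- **`|T[ℓ]| = ℓ ^ r`.** -/
theorem card_tors_one : Nat.card (tors T ℓ 1) = ℓ ^ r := by
  obtain ⟨j, hj⟩ := h.exists_subset_S (h.finite_tors 2)
  have h1 := h.card_S_succ j hj
  rw [h.card_S, h.card_S] at h1
  have h2 : ℓ ^ (c + r * (j + 1)) = ℓ ^ r * ℓ ^ (c + r * j) := by
    rw [← pow_add]; congr 1; ring
  rw [h2] at h1
  exact (Nat.eq_of_mul_eq_mul_right (pow_pos hℓ.out.pos _) h1).symm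

/-- **MAIN THEOREM of node A7**: `|T[ℓ ^ k]| = ℓ ^ (r k)`. -/
theorem card_tors (k : ℕ) : Nat.card (tors T ℓ k) = ℓ ^ (r * k) := by
  induction k with
  | zero =>
    have : tors T ℓ 0 = ⊥ := by
      ext x
      rw [mem_tors, pow_zero, one_smul, AddSubgroup.mem_bot]
    rw [this, mul_zero, pow_zero]
    exact AddSubgroup.card_bot
  | succ k ih =>
    rw [card_eq_card_inf_ker_mul_card_map (nsmulAddMonoidHom (α := T) ℓ), ker_nsmul_eq_tors]
    have h1 : tors T ℓ 1 ⊓ tors T ℓ (k + 1) = tors T ℓ 1 :=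
      inf_of_le_left (tors_mono ℓ (by omega))
    have h2 : (tors T ℓ (k + 1)).map (nsmulAddMonoidHom (α := T) ℓ) = tors T ℓ k := by
      ext z
      constructor
      · rintro ⟨x, hx, rfl⟩
        exact nsmul_mem_tors hx
      · intro hz
        obtain ⟨x, rfl⟩ := h.divisible z
        refine ⟨x, ?_, rfl⟩
        rw [mem_tors] at hz
        rw [SetLike.mem_coe, mem_tors, pow_succ, mul_smul]
        exact hz
    rw [h1, h2, ih, h.card_tors_one, ← pow_add]
    congr 1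
    ring

end FrobGrowth

end Fermat.Agent.GJ27.Grp
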